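/-
MLT / Fr3 (helper9): fork of `Lib/Ihara/Grp/Level.lean` for `p = 3` (generated by a rename
script from the frozen file: only the declarations depending on `IhfLevel` / `IsUnit 3` are repeated, with
the prefix `ih`/`Ih` replaced by `jh`/`Jh`; the level hypothesis is `JhfLevel`, see `Fr3/Fr/Three.lean`).
-/
import Mathlib
import Fermat.Agent.Lib.Ihara.Grp.Kappa
import Fermat.Agent.Lib.Ihara.Grp.Sum
import Fermat.Agent.Lib.Ihara.Fr.Defs
import Fermat.Agent.Lib.MLT.Fr3.Fr.Defs
import Fermat.Agent.Lib.Ihara.Grp.Level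

set_option autoImplicit false
set_option linter.unusedSectionVars false
set_option linter.unusedVariables false
set_option linter.style.haveILetI false

namespace Fermat.Agent.Ihara

open Matrix MatrixGroups CongruenceSubgroup Multiplicative
open Fermat.Agent.DS

/-- the hypotheses `JhfLevel` are inherited by bigger subgroups -/
theorem jhq_level_mono {p M : ℕ} {H H' : Subgroup (ZMod M)ˣ} (hle : H ≤ H')
    (hL : JhfLevel p M H) : JhfLevel p M H' where
  prime := hL.prime
  odd := hL.odd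
  three := hL.three
  neg_mem := hle hL.neg_mem
  pgroup d := (hL.pgroup d).imp fun _ h => hle h
  par γ hγ htr := ihfGammaH_mono hle (hL.par γ hγ htr)

section

variable {ι : Type*} [Fintype ι] {M : ℕ} {q m : ι → ℕ}

/-- **the level structure `ker κ`** (all `m i` powers of `p`) -/
theorem jhq_level {p : ℕ} (hp : p.Prime) (hp5 : Jh5 p M) (hM : Squarefree M)
    (h : IhqData M q m) (hm : ∀ i, ∃ e : ℕ, m i = p ^ e) : JhfLevel p M (ihqKappa h).ker := by
  have hp2 : p ≠ 2 := hp5.1
  choose e he using hm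
  have hodd : ∀ i, Odd (m i) := fun i => by rw [he i]; exact (hp.odd_of_ne_two hp2).pow
  refine ⟨hp, hp5.1, hp5.2, ihq_neg_one_mem_ker h hodd, fun d => ⟨∑ i, e i, ?_⟩,
    ihq_par hM _ (ihq_neg_one_mem_ker h hodd)⟩
  have h1 := ihq_pow_mem_ker h d
  have h2 : ∏ i, m i = p ^ ∑ i, e i := by
    rw [← Finset.prod_pow_eq_pow_sum]
    exact Finset.prod_congr rfl fun i _ => he i
  rwa [h2] at h1

end

section Concrete

variable {p N r : ℕ} (Tc : Finset Nat.Primes) (qv : Fin r → ℕ)

/-- **the level structure `H_n ≤ (ℤ/M_n)ˣ`, `M_n = N · ∏ qv i`** -/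
theorem jhq_level_sum (hp : p.Prime) (hp5 : Jh5 p (N * ∏ i, qv i)) (hN : Squarefree N)
    (hTcN : ∀ v : ↥Tc, ((v : Nat.Primes) : ℕ) ∣ N)
    (hqinj : Function.Injective qv) (hqprime : ∀ i, (qv i).Prime) (hqN : ∀ i, ¬ qv i ∣ N) :
    JhfLevel p (N * ∏ i, qv i)
      (ihqKappa (ihq_data_sum (p := p) Tc qv hTcN hqinj hqprime hqN)).ker :=
  jhq_level hp hp5 (ihq_squarefree_level qv hN hqinj hqprime hqN) _ (ihqOrders_pow Tc qv)

end Concrete

end Fermat.Agent.Ihara
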